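/-
S55 (Poitou–Tate), layer G, leaf G-SIND-U (`SIndH601.UnitsVanishSpec`): SUB-INTERFACE (helper898).

`UnitsVanishSpec` (cohomological triviality of `∏_{w | S' ∖ S} U_w`) is assembled in
`SIndH601/U898/Assembly.lean`:

    unitsVanish_of : SemilocalSubSpec → LocalVanishSpec → AboveSpec → UnitsVanishSpec

(twin vanishing `T.twinVanishing` reduces to degrees `1, 2`).  This file contains only the two
`def XxxSpec : Prop` below (no `sorry`); both are independent of number fields.

* **U-SL**  `SemilocalSubSpec` : semi-local Shapiro for a `G`-stable subgroup `U ≤ Rˣ`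
  (`R` reduced Artinian with `G`-action) which is a *product of local subgroups*, in vanishing
  form.  Tools: `G/LocH897/Alg.lean` (`existsUnique_units`), `G/LocH897/Coh.lean`
  (`semilocal_bijective`), `T.shapiroExplicit`, `T.finiteProd` (all on main).
* **U-LOC** `LocalVanishSpec` : `H¹(D, U_E) = H²(D, U_E) = 0` for a finite group `D` acting
  faithfully and WITHOUT INERTIA on a finite extension `E / ℚ_q`.  Tools: Mathlib Galois theory
  (`IntermediateField.fixedField`), `Local.H959.exists_inertia`,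
  `Local.H959.isUnram_iff_ramExp_eq_one`, `Local.Closed.existsUnif`,
  `Local.Closed.unramUnitsH1`, `Local.Closed.unramUnitsH2` (all on main).
-/
import Fermat.Agent.S55.G.SIndH601.Spec
import Fermat.Agent.S55.G.LocH897.Coh

set_option autoImplicit false

open CategoryTheory groupCohomology

noncomputable section

namespace Fermat.Agent.S55.G.SIndH601.U898

open Fermat.Agent.S55 Fermat.Agent.S55.G

/-- **U-SL** (semi-local Shapiro for product subgroups of the units, vanishing form).

Let `R` be a reduced Artinian ring with an action `φ` of `G`, `B` a representation of `G` with an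
injective equivariant map `j : B → Rˣ` (think: a `G`-stable subgroup `U = range j` of `Rˣ`) such
that `U` is a *product of local subgroups*: a unit `u` which is congruent to an element of `U`
modulo every maximal ideal lies in `U`.  Let `𝔪 i` (`i : ι` finite) represent the `G`-orbits on
the maximal spectrum, with decomposition groups `D_i = LocH897.decomp φ (𝔪 i)`, and let `A i` be
the image of `U` in `(R ⧸ 𝔪 i)ˣ` as a representation of `D_i` (presented by an injective
equivariant `jA i` with `range (jA i) = image of U`).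
If `Hⁿ(D_i, A i) = 0` for all `i`, then `Hⁿ(G, B) = 0`. -/
def SemilocalSubSpec : Prop :=
  ∀ (G R : Type) [Group G] [CommRing R] [IsArtinianRing R] [IsReduced R] (φ : G →* (R ≃+* R))
    (B : Rep.{0} ℤ G) (j : B.V →ₗ[ℤ] Additive Rˣ), Function.Injective j →
    (∀ (g : G) (b : B.V), j (B.ρ g b) = LocH897.uRepr φ g (j b)) →
    (∀ u : Additive Rˣ,
      (∀ 𝔫 : Ideal R, 𝔫.IsMaximal →
        ∃ b : B.V, LocH897.locLin 𝔫 (j b) = LocH897.locLin 𝔫 u) →
      u ∈ LinearMap.range j) →
    ∀ (ι : Type) [Finite ι] (𝔪 : ι → Ideal R), (∀ i, (𝔪 i).IsMaximal) →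
    (∀ 𝔫 : Ideal R, 𝔫.IsMaximal → ∃ i g, ∀ x, x ∈ 𝔫 ↔ φ g x ∈ 𝔪 i) →
    (∀ i j' g, (∀ x, x ∈ 𝔪 j' ↔ φ g x ∈ 𝔪 i) → i = j') →
    ∀ (A : ∀ i, Rep.{0} ℤ (LocH897.decomp φ (𝔪 i)))
      (jA : ∀ i, (A i).V →ₗ[ℤ] Additive (R ⧸ 𝔪 i)ˣ),
      (∀ i, Function.Injective (jA i)) →
      (∀ (i : ι) (s : LocH897.decomp φ (𝔪 i)) (a : (A i).V),
        jA i ((A i).ρ s a) = LocH897.resUnitsRepr φ (𝔪 i) s (jA i a)) →
      (∀ i, LinearMap.range (jA i) = (LinearMap.range j).map (LocH897.locLin (𝔪 i))) →
      ∀ n : ℕ, (∀ i, Limits.IsZero (groupCohomology (A i) n)) →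
        Limits.IsZero (groupCohomology B n)

/-- **U-LOC** (units of an extension without inertia are cohomologically trivial in degrees
`1, 2`).

Let `E` be a finite extension of `ℚ_q` and `D` a finite group acting on `E` by `ℚ_q`-linear field
automorphisms (`ψ`), faithfully, and without inertia: the only `d ∈ D` with
`d x - x ∈ 𝔪_E` (integral and not a unit of the ring of integers) for all integral `x` is `d = 1`.
Let `A` be the group of units `U_E = Local.intUnits ℤ_q ℚ_q E` of the ring of integers as a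
representation of `D` (presented by an injective equivariant `j : A → Eˣ` with range `U_E`).
Then `H¹(D, A) = H²(D, A) = 0`.
(`E / E^D` is Galois with group `D`, unramified because the inertia group has order `e`;
then `Local.UnramUnitsH1Statement`, `Local.UnramUnitsH2Statement`.) -/
def LocalVanishSpec : Prop :=
  ∀ (q : ℕ) [Fact q.Prime] (E : Type) [Field E] [Algebra ℚ_[q] E] [FiniteDimensional ℚ_[q] E]
    (D : Type) [Group D] [Finite D] (ψ : D →* (E ≃+* E)),
    (∀ (d : D) (c : ℚ_[q]), ψ d (algebraMap ℚ_[q] E c) = algebraMap ℚ_[q] E c) →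
    Function.Injective ψ →
    (∀ d : D,
      (∀ x : E, Local.IsInt ℤ_[q] ℚ_[q] E x →
        Local.IsInt ℤ_[q] ℚ_[q] E (ψ d x - x) ∧
          ∀ z : E, Local.IsInt ℤ_[q] ℚ_[q] E z → (ψ d x - x) * z ≠ 1) →
      d = 1) →
    ∀ (A : Rep.{0} ℤ D) (j : A.V →ₗ[ℤ] Additive Eˣ), Function.Injective j →
      (∀ (d : D) (a : A.V), j (A.ρ d a) = LocH897.uRepr ψ d (j a)) →
      (∀ u : Additive Eˣ,
        u ∈ LinearMap.range j ↔ u.toMul ∈ Local.intUnits ℤ_[q] ℚ_[q] E) →
      Limits.IsZero (groupCohomology A 1) ∧ Limits.IsZero (groupCohomology A 2)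

end Fermat.Agent.S55.G.SIndH601.U898
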