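/-
S55 / G / G-SIND-U (helper898), part 1: the kernel of `asRes : L ⊗ ℚ_{S'} → L ⊗ ℚ_S` and the
places above `S`.
-/
import Fermat.Agent.S55.G.SIndH601.U898.Spec
import Fermat.Agent.S55.G.LocH897.ASRing

set_option autoImplicit false
set_option linter.unusedSectionVars false
set_option linter.style.haveILetI false

open scoped NumberField TensorProduct
open IsDedekindDomain CategoryTheory

noncomputable section

namespace Fermat.Agent.S55.G.SIndH601.U898

open Fermat.Agent.S55 Fermat.Agent.S55.G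

variable {S S' : Finset Nat.Primes} (h : S ⊆ S') (L : Type) [Field L] [NumberField L]

/-- The idempotent `e_S ∈ ℚ_{S'}` (components `1` at `q ∈ S`, `0` at `q ∈ S' ∖ S`). -/
def eS (S S' : Finset Nat.Primes) : QS S' :=
  (QS.toPi S').symm (fun q => by classical exact if q.1 ∈ S then 1 else 0)

lemma eS_apply (q : S') :
    QS.toPi S' (eS S S') q = (by classical exact if q.1 ∈ S then (1 : Qq q.1) else 0) := rfl

lemma eS_apply_of_mem (q : S') (hq : q.1 ∈ S) : QS.toPi S' (eS S S') q = 1 := by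
  classical
  rw [eS_apply]
  exact if_pos hq

/-- Extension by zero, componentwise. -/
def extFun (S S' : Finset Nat.Primes) (y : QS S) (q : S') : Qq q.1 := by
  classical exact if hq : q.1 ∈ S then QS.toPi S y ⟨q.1, hq⟩ else 0

lemma extFun_of_mem (y : QS S) (q : S') (hq : q.1 ∈ S) :
    extFun S S' y q = QS.toPi S y ⟨q.1, hq⟩ := by
  classical
  unfold extFun
  exact dif_pos hq

lemma extFun_of_not_mem (y : QS S) (q : S') (hq : q.1 ∉ S) : extFun S S' y q = 0 := by
  classical
  unfold extFun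
  exact dif_neg hq

/-- Extension by zero `ℚ_S → ℚ_{S'}` (a `ℚ`-linear section of `QS.res`). -/
def extZero (S S' : Finset Nat.Primes) : QS S →ₗ[ℚ] QS S' where
  toFun y := (QS.toPi S').symm (extFun S S' y)
  map_add' y z := by
    refine PL0H713.QS_ext S' fun q => ?_
    show extFun S S' (y + z) q = extFun S S' y q + extFun S S' z q
    by_cases hq : q.1 ∈ S
    · rw [extFun_of_mem _ _ hq, extFun_of_mem _ _ hq, extFun_of_mem _ _ hq]; rfl
    · rw [extFun_of_not_mem _ _ hq, extFun_of_not_mem _ _ hq, extFun_of_not_mem _ _ hq,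
        add_zero]
  map_smul' c y := by
    refine PL0H713.QS_ext S' fun q => ?_
    show extFun S S' (c • y) q = c • extFun S S' y q
    by_cases hq : q.1 ∈ S
    · rw [extFun_of_mem _ _ hq, extFun_of_mem _ _ hq]; rfl
    · rw [extFun_of_not_mem _ _ hq, extFun_of_not_mem _ _ hq, smul_zero]

lemma extZero_res (y : QS S') : extZero S S' (QS.res h y) = y * eS S S' := by
  classical
  refine PL0H713.QS_ext S' fun q => ?_
  show extFun S S' (QS.res h y) q = QS.toPi S' y q * QS.toPi S' (eS S S') q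
  by_cases hq : q.1 ∈ S
  · rw [extFun_of_mem _ _ hq, eS_apply_of_mem _ hq, mul_one]; rfl
  · rw [extFun_of_not_mem _ _ hq, eS_apply, if_neg hq, mul_zero]

/-- Multiplication by `1 ⊗ e_S` factors through `asRes`. -/
lemma mul_eS_eq (x : AS S' L) :
    x * ((1 : L) ⊗ₜ[ℚ] eS S S') =
      TensorProduct.map (LinearMap.id : L →ₗ[ℚ] L) (extZero S S') (asRes h L x) := by
  induction x using TensorProduct.induction_on with
  | zero => simp
  | tmul a b =>
    rw [asRes_tmul, TensorProduct.map_tmul, LinearMap.id_apply, extZero_res,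
      Algebra.TensorProduct.tmul_mul_tmul, mul_one]
  | add a b ha hb => rw [add_mul, ha, hb, map_add, map_add]

lemma mul_eS_eq_zero (x : AS S' L) (hx : asRes h L x = 0) :
    x * ((1 : L) ⊗ₜ[ℚ] eS S S') = 0 := by
  rw [mul_eS_eq h L x, hx, map_zero]

/-- **K1.**  If the rational prime below `𝔪` lies in `S`, then `𝔪` contains the kernel of
`asRes`. -/
lemma mem_of_asRes_eq_zero (𝔪 : SPlace S' L) (h𝔪 : (PL0H713.primeOf S' L 𝔪).1 ∈ S)
    (x : AS S' L) (hx : asRes h L x = 0) : x ∈ 𝔪.asIdeal := by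
  rw [← LocField.mk_eq_zero_iff]
  have h1 : LocField.mk S' 𝔪 x * LocField.mk S' 𝔪 ((1 : L) ⊗ₜ[ℚ] eS S S') = 0 := by
    rw [← map_mul, mul_eS_eq_zero h L x hx, map_zero]
  have h2 : LocField.mk S' 𝔪 ((1 : L) ⊗ₜ[ℚ] eS S S') = 1 := by
    rw [PL0H713.mk_tmul, map_one, one_mul, PL0H713.ofQS_eq, eS_apply_of_mem _ h𝔪, map_one]
  rwa [h2, mul_one] at h1

/-- `𝔪` is an `S`-place: it contains the kernel of `asRes`. -/
def IsSPl (𝔪 : SPlace S' L) : Prop := ∀ x : AS S' L, asRes h L x = 0 → x ∈ 𝔪.asIdeal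

/-- **K2.**  An element lying in all `S`-places is killed by `asRes`. -/
lemma asRes_eq_zero_of_forall_mem (x : AS S' L)
    (hx : ∀ 𝔪 : SPlace S' L, IsSPl h L 𝔪 → x ∈ 𝔪.asIdeal) : asRes h L x = 0 := by
  haveI := LocH897.isReduced_AS S L
  haveI := LocH897.isArtinianRing_AS S L
  haveI := LocH897.isArtinianRing_AS S' L
  apply LocH897.eq_zero_of_forall_mem_maximal
  intro 𝔭 h𝔭
  haveI : (𝔭.comap (asRes h L)).IsPrime := Ideal.comap_isPrime _ _
  have hmax : (𝔭.comap (asRes h L)).IsMaximal := IsArtinianRing.isMaximal_of_isPrime _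
  exact hx ⟨𝔭.comap (asRes h L), hmax⟩ (fun y hy => by
    show asRes h L y ∈ 𝔭
    rw [hy]
    exact 𝔭.zero_mem)

end Fermat.Agent.S55.G.SIndH601.U898
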