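/-
S55 / G / G-SIND-U (helper898), part 2: `unitsT` is a product of local subgroups; its local
components.
-/
import Fermat.Agent.S55.G.SIndH601.U898.Ker

set_option autoImplicit false
set_option linter.unusedSectionVars false
set_option linter.style.haveILetI false

open scoped NumberField TensorProduct
open IsDedekindDomain CategoryTheory

noncomputable section

namespace Fermat.Agent.S55.G.SIndH601.U898

open Fermat.Agent.S55 Fermat.Agent.S55.G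

variable {S S' : Finset Nat.Primes} (h : S ⊆ S') (L : Type) [Field L] [NumberField L]
  (β : SPlace S' L → HeightOneSpectrum (𝓞 L))

/-- The value of an idèle in the local field `L_𝔪`. -/
abbrev locVal' (𝔪 : SPlace S' L) (u : Additive (AS S' L)ˣ) : LocField S' 𝔪 :=
  LocField.mk S' 𝔪 ((u.toMul : (AS S' L)ˣ) : AS S' L)

lemma jRes_eq_zero_iff (u : Additive (AS S' L)ˣ) :
    jRes h L u = 0 ↔ asRes h L (((u.toMul : (AS S' L)ˣ) : AS S' L) - 1) = 0 := by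
  rw [map_sub, map_one, sub_eq_zero]
  constructor
  · intro hu
    have := congrArg (fun y : Additive (AS S L)ˣ => ((y.toMul : (AS S L)ˣ) : AS S L)) hu
    exact this
  · intro hu
    apply Additive.toMul.injective
    apply Units.ext
    exact hu

/-- At an `S`-place, the elements of `unitsT` are `≡ 1`. -/
lemma locVal'_eq_one_of_isSPl (𝔪 : SPlace S' L) (h𝔪 : IsSPl h L 𝔪) (b : Additive (AS S' L)ˣ)
    (hb : b ∈ unitsT h L β) : locVal' L 𝔪 b = 1 := by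
  have h1 := (jRes_eq_zero_iff h L b).1 hb.1
  have h2 := h𝔪 _ h1
  rw [← LocField.mk_eq_zero_iff, map_sub, map_one, sub_eq_zero] at h2
  exact h2

/-- **Local-global property of `unitsT`.** -/
lemma mem_unitsT_of_local (u : Additive (AS S' L)ˣ)
    (hu : ∀ 𝔪 : SPlace S' L, ∃ b ∈ unitsT h L β, locVal' L 𝔪 b = locVal' L 𝔪 u) :
    u ∈ unitsT h L β := by
  refine ⟨?_, fun 𝔪 h𝔪 => ?_⟩
  · rw [jRes_eq_zero_iff]
    apply asRes_eq_zero_of_forall_mem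
    intro 𝔪 h𝔪
    obtain ⟨b, hb, hbu⟩ := hu 𝔪
    rw [← LocField.mk_eq_zero_iff, map_sub, map_one, sub_eq_zero]
    exact hbu.symm.trans (locVal'_eq_one_of_isSPl h L β 𝔪 h𝔪 b hb)
  · obtain ⟨b, hb, hbu⟩ := hu 𝔪
    have h1 := hb.2 𝔪 h𝔪
    rw [placeOrd_apply] at h1 ⊢
    have h2 : LocField.mk S' 𝔪 ((b.toMul : (AS S' L)ˣ) : AS S' L) =
        LocField.mk S' 𝔪 ((u.toMul : (AS S' L)ˣ) : AS S' L) := hbu
    rw [← h2]
    exact h1

/-! ## Units of the ring of integers of `L_𝔪` -/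

/-- `x ∈ L_𝔪ˣ` is a unit of the ring of integers (in the sense of the `Local` core, base
`(ℤ_q, ℚ_q)`, `q` the prime below `𝔪`). -/
def IsIntUnit (𝔪 : SPlace S' L) (x : (LocField S' 𝔪)ˣ) : Prop :=
  haveI : Fact (Nat.Prime ((PL0H713.primeOf S' L 𝔪).1 : ℕ)) := ⟨(PL0H713.primeOf S' L 𝔪).1.2⟩
  letI := PL0H713.algQq S' L 𝔪
  x ∈ Local.intUnits ℤ_[((PL0H713.primeOf S' L 𝔪).1 : ℕ)] ℚ_[((PL0H713.primeOf S' L 𝔪).1 : ℕ)]
    (LocField S' 𝔪)

lemma isIntUnit_iff_mem (𝔪 : SPlace S' L) (x : (LocField S' 𝔪)ˣ) :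
    IsIntUnit L 𝔪 x ↔ (x : LocField S' 𝔪) ∈ PL0H713.intRing S' L 𝔪 ∧
      ((x⁻¹ : (LocField S' 𝔪)ˣ) : LocField S' 𝔪) ∈ PL0H713.intRing S' L 𝔪 := Iff.rfl

lemma isIntUnit_iff_locVal (𝔪 : SPlace S' L) (x : (LocField S' 𝔪)ˣ) :
    IsIntUnit L 𝔪 x ↔ locVal S' L 𝔪 (x : LocField S' 𝔪) = 1 := by
  rw [isIntUnit_iff_mem, ← locVal_le_one_iff, ← locVal_le_one_iff]
  have hx : locVal S' L 𝔪 (x : LocField S' 𝔪) ≠ 0 :=
    (Valuation.ne_zero_iff _).2 x.ne_zero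
  have hinv : locVal S' L 𝔪 ((x⁻¹ : (LocField S' 𝔪)ˣ) : LocField S' 𝔪) =
      (locVal S' L 𝔪 (x : LocField S' 𝔪))⁻¹ := by
    rw [Units.val_inv_eq_inv_val, map_inv₀]
  rw [hinv]
  constructor
  · rintro ⟨h1, h2⟩
    refine le_antisymm h1 ?_
    rwa [inv_le_one₀ (zero_lt_iff.2 hx)] at h2
  · intro h1
    rw [h1, inv_one]
    exact ⟨le_rfl, le_rfl⟩

lemma isIntUnit_iff_placeOrd (𝔪 : SPlace S' L) (b : Additive (AS S' L)ˣ) :
    IsIntUnit L 𝔪 (Units.map (LocField.mk S' 𝔪 : AS S' L →* LocField S' 𝔪) b.toMul) ↔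
      placeOrd S' L 𝔪 b = 0 := by
  rw [isIntUnit_iff_locVal, placeOrd_eq_zero_iff]
  rfl

lemma isIntUnit_one (𝔪 : SPlace S' L) : IsIntUnit L 𝔪 1 := by
  rw [isIntUnit_iff_locVal, Units.val_one, map_one]

/-! ## CRT for units -/

section CRT

/-- The family of local units with component `x` at `𝔪` and `1` elsewhere. -/
def crtFam (𝔪 : SPlace S' L) (x : (LocField S' 𝔪)ˣ) :
    ∀ 𝔫 : SPlace S' L, (LocField S' 𝔫)ˣ := fun 𝔫 => by
  classical exact if hn : 𝔫 = 𝔪 then hn ▸ x else 1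

lemma crtFam_self (𝔪 : SPlace S' L) (x : (LocField S' 𝔪)ˣ) : crtFam L 𝔪 x 𝔪 = x := by
  classical
  unfold crtFam
  rw [dif_pos rfl]

lemma crtFam_of_ne (𝔪 : SPlace S' L) (x : (LocField S' 𝔪)ˣ) (𝔫 : SPlace S' L)
    (hn : 𝔫 ≠ 𝔪) : crtFam L 𝔪 x 𝔫 = 1 := by
  classical
  unfold crtFam
  rw [dif_neg hn]

/-- The same family, with values in the quotient rings. -/
def crtFam' (𝔪 : SPlace S' L) (x : (LocField S' 𝔪)ˣ) :
    ∀ 𝔫 : SPlace S' L, (AS S' L ⧸ 𝔫.asIdeal)ˣ := fun 𝔫 => crtFam L 𝔪 x 𝔫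

/-- The idèle with component `x` at `𝔪` and `1` elsewhere. -/
def crtUnit (𝔪 : SPlace S' L) (x : (LocField S' 𝔪)ˣ) : (AS S' L)ˣ :=
  haveI := LocH897.isReduced_AS S' L
  haveI := LocH897.isArtinianRing_AS S' L
  Units.map ((IsArtinianRing.equivPi (AS S' L)).symm : _ →* AS S' L)
    (MulEquiv.piUnits.symm (crtFam' L 𝔪 x))

lemma mk_crtUnit (𝔪 : SPlace S' L) (x : (LocField S' 𝔪)ˣ) (𝔫 : SPlace S' L) :
    LocField.mk S' 𝔫 ((crtUnit L 𝔪 x : (AS S' L)ˣ) : AS S' L) =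
      ((crtFam L 𝔪 x 𝔫 : (LocField S' 𝔫)ˣ) : LocField S' 𝔫) := by
  haveI := LocH897.isReduced_AS S' L
  haveI := LocH897.isArtinianRing_AS S' L
  have h1 := IsArtinianRing.equivPi_apply (R := AS S' L)
    ((crtUnit L 𝔪 x : (AS S' L)ˣ) : AS S' L) 𝔫
  have h2 : IsArtinianRing.equivPi (AS S' L) ((crtUnit L 𝔪 x : (AS S' L)ˣ) : AS S' L) =
      fun 𝔫 => ((crtFam' L 𝔪 x 𝔫 : (AS S' L ⧸ 𝔫.asIdeal)ˣ) : AS S' L ⧸ 𝔫.asIdeal) := by
    show IsArtinianRing.equivPi (AS S' L) ((IsArtinianRing.equivPi (AS S' L)).symm _) = _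
    rw [AlgEquiv.apply_symm_apply]
    rfl
  rw [h2] at h1
  exact h1.symm

end CRT

/-! ## The local components of `unitsT` -/

/-- At a place not above `S`, the elements of `unitsT` are local integral units. -/
lemma isIntUnit_of_mem_unitsT (𝔪 : SPlace S' L) (h𝔪 : ¬ IsAbove S L (β 𝔪))
    (b : Additive (AS S' L)ˣ) (hb : b ∈ unitsT h L β) :
    IsIntUnit L 𝔪 (Units.map (LocField.mk S' 𝔪 : AS S' L →* LocField S' 𝔪) b.toMul) :=
  (isIntUnit_iff_placeOrd L 𝔪 b).2 (hb.2 𝔪 h𝔪)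

lemma units_map_mk_crtUnit (𝔪 : SPlace S' L) (x : (LocField S' 𝔪)ˣ) (𝔫 : SPlace S' L) :
    Units.map (LocField.mk S' 𝔫 : AS S' L →* LocField S' 𝔫) (crtUnit L 𝔪 x) =
      crtFam L 𝔪 x 𝔫 :=
  Units.ext (mk_crtUnit L 𝔪 x 𝔫)

/-- At a place which is not an `S`-place, every local integral unit is the component of an
element of `unitsT`. -/
lemma exists_mem_unitsT (𝔪 : SPlace S' L) (h𝔪 : ¬ IsSPl h L 𝔪) (x : (LocField S' 𝔪)ˣ)
    (hx : IsIntUnit L 𝔪 x) :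
    ∃ b ∈ unitsT h L β,
      Units.map (LocField.mk S' 𝔪 : AS S' L →* LocField S' 𝔪) b.toMul = x := by
  refine ⟨Additive.ofMul (crtUnit L 𝔪 x), ⟨?_, fun 𝔫 _ => ?_⟩, ?_⟩
  · rw [jRes_eq_zero_iff]
    apply asRes_eq_zero_of_forall_mem
    intro 𝔫 h𝔫
    have hne : 𝔫 ≠ 𝔪 := fun e => h𝔪 (e ▸ h𝔫)
    rw [← LocField.mk_eq_zero_iff, map_sub, map_one, sub_eq_zero]
    have h1 := mk_crtUnit L 𝔪 x 𝔫
    rw [crtFam_of_ne L 𝔪 x 𝔫 hne, Units.val_one] at h1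
    exact h1
  · rw [← isIntUnit_iff_placeOrd]
    show IsIntUnit L 𝔫 (Units.map (LocField.mk S' 𝔫 : AS S' L →* LocField S' 𝔫) (crtUnit L 𝔪 x))
    rw [units_map_mk_crtUnit]
    by_cases hne : 𝔫 = 𝔪
    · subst hne
      rw [crtFam_self]
      exact hx
    · rw [crtFam_of_ne L 𝔪 x 𝔫 hne]
      exact isIntUnit_one L 𝔫
  · show Units.map (LocField.mk S' 𝔪 : AS S' L →* LocField S' 𝔪) (crtUnit L 𝔪 x) = x
    rw [units_map_mk_crtUnit, crtFam_self]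

end Fermat.Agent.S55.G.SIndH601.U898
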