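/-
S55 / G / G-SIND-U (helper898), part 3: the decomposition group of a place outside `S` acts on
`L_𝔪` faithfully, `ℚ_q`-linearly and without inertia.
-/
import Fermat.Agent.S55.G.SIndH601.U898.Units
import Fermat.Agent.S55.G.PL1H173.PrimeAt

set_option autoImplicit false
set_option linter.unusedSectionVars false
set_option linter.style.haveILetI false

open scoped NumberField TensorProduct
open IsDedekindDomain CategoryTheory

noncomputable section

namespace Fermat.Agent.S55.G.SIndH601.U898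

open Fermat.Agent.S55 Fermat.Agent.S55.G

variable (S' : Finset Nat.Primes) (G L : Type) [Group G] [Field L] [NumberField L]
  [MulSemiringAction G L] (H : Subgroup G)

/-- The action of the subgroup `H ≤ G` on `L ⊗ ℚ_{S'}`. -/
def phiH : H →* (AS S' L ≃+* AS S' L) := (asRingAut G S' L).comp H.subtype

lemma phiH_apply (g : H) (x : AS S' L) : phiH S' G L H g x = asAut S' G L (g : G) x := rfl

variable {L}

/-- The decomposition group of `𝔪` in `H`. -/
abbrev decH (𝔪 : SPlace S' L) : Subgroup H := LocH897.decomp (phiH S' G L H) 𝔪.asIdeal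

/-- The action of the decomposition group on `L_𝔪`. -/
def psiH (𝔪 : SPlace S' L) : decH S' G H 𝔪 →* (LocField S' 𝔪 ≃+* LocField S' 𝔪) :=
  LocH897.resAut (phiH S' G L H) 𝔪.asIdeal

lemma psiH_eq (𝔪 : SPlace S' L) (d : decH S' G H 𝔪) (x : LocField S' 𝔪) :
    psiH S' G H 𝔪 d x = LocH897.resAut (phiH S' G L H) 𝔪.asIdeal d x := rfl

lemma psiH_mk (𝔪 : SPlace S' L) (d : decH S' G H 𝔪) (x : AS S' L) :
    psiH S' G H 𝔪 d (LocField.mk S' 𝔪 x) = LocField.mk S' 𝔪 (asAut S' G L ((d : H) : G) x) :=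
  LocH897.resAut_mk (phiH S' G L H) 𝔪.asIdeal d x

lemma psiH_toLoc (𝔪 : SPlace S' L) (d : decH S' G H 𝔪) (x : L) :
    psiH S' G H 𝔪 d (toLoc S' 𝔪 x) = toLoc S' 𝔪 (((d : H) : G) • x) := by
  show psiH S' G H 𝔪 d (LocField.mk S' 𝔪 (asDiag S' L x)) = LocField.mk S' 𝔪 (asDiag S' L _)
  rw [psiH_mk, asAut_asDiag]

lemma psiH_ofQS (𝔪 : SPlace S' L) (d : decH S' G H 𝔪) (y : QS S') :
    psiH S' G H 𝔪 d (LocField.ofQS S' 𝔪 y) = LocField.ofQS S' 𝔪 y := by
  show psiH S' G H 𝔪 d (LocField.mk S' 𝔪 (asIncl S' L y)) = LocField.mk S' 𝔪 (asIncl S' L y)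
  rw [psiH_mk, asAut_asIncl]

lemma psiH_ofQq (𝔪 : SPlace S' L) (d : decH S' G H 𝔪)
    (c : Qq (PL0H713.primeOf S' L 𝔪).1) :
    psiH S' G H 𝔪 d (PL0H713.ofQq S' L 𝔪 c) = PL0H713.ofQq S' L 𝔪 c := by
  rw [PL0H713.ofQq_apply]
  exact psiH_ofQS S' G H 𝔪 d _

lemma toLoc_injective (𝔪 : SPlace S' L) : Function.Injective (toLoc S' 𝔪) :=
  (toLoc S' 𝔪).injective

lemma psiH_injective [FaithfulSMul G L] (𝔪 : SPlace S' L) :
    Function.Injective (psiH S' G H 𝔪) := by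
  intro d d' hdd'
  apply Subtype.ext
  apply Subtype.ext
  refine eq_of_smul_eq_smul (α := L) fun x => ?_
  apply toLoc_injective S' 𝔪
  rw [← psiH_toLoc, ← psiH_toLoc, hdd']

/-- Integers of `L` are integral in `L_𝔪`. -/
lemma toLoc_mem_intRing' (𝔪 : SPlace S' L) (a : 𝓞 L) :
    toLoc S' 𝔪 (a : L) ∈ PL0H713.intRing S' L 𝔪 :=
  PL1H173.toLoc_mem_intRing S' L 𝔪 a

/-- **No inertia** at the places outside `S`. -/
lemma eq_one_of_inertia [FaithfulSMul G L] {S : Finset Nat.Primes}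
    (β : SPlace S' L → HeightOneSpectrum (𝓞 L)) (hβ : IsDict S' L β)
    (hunr : IsUnramOut S G L) (𝔪 : SPlace S' L) (h𝔪 : ¬ IsAbove S L (β 𝔪))
    (d : decH S' G H 𝔪)
    (hd : ∀ x : LocField S' 𝔪, x ∈ PL0H713.intRing S' L 𝔪 →
      (psiH S' G H 𝔪 d x - x) ∈ (PL0H713.intRing S' L 𝔪).nonunits) : d = 1 := by
  have h1 : ∀ a : 𝓞 L, ((d : H) : G) • a - a ∈ (β 𝔪).asIdeal := by
    intro a
    rw [hβ.integral 𝔪]
    have h2 := hd (toLoc S' 𝔪 (a : L)) (toLoc_mem_intRing' S' 𝔪 a)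
    rw [psiH_toLoc, ← map_sub] at h2
    exact h2
  have h3 := hunr (β 𝔪) h𝔪 ((d : H) : G) h1
  apply Subtype.ext
  apply Subtype.ext
  refine eq_of_smul_eq_smul (α := L) fun x => ?_
  show ((d : H) : G) • x = (1 : G) • x
  rw [h3 x, one_smul]

/-- The "maximal ideal" condition of `LocalVanishSpec` implies membership in the non-units. -/
lemma mem_nonunits_of_inMax (𝔪 : SPlace S' L) (y : LocField S' 𝔪)
    (h2 : ∀ z : LocField S' 𝔪, z ∈ PL0H713.intRing S' L 𝔪 → y * z ≠ 1) :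
    y ∈ (PL0H713.intRing S' L 𝔪).nonunits := by
  rw [ValuationSubring.mem_nonunits_iff_or]
  by_cases hy : y = 0
  · exact Or.inl hy
  · exact Or.inr fun hinv => h2 y⁻¹ hinv (mul_inv_cancel₀ hy)

end Fermat.Agent.S55.G.SIndH601.U898
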