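/-
S55 / G / G-SIND-U (helper898), part 4: assembly

    unitsVanish_of : SemilocalSubSpec → LocalVanishSpec → UnitsVanishSpec.
-/
import Fermat.Agent.S55.G.SIndH601.U898.LocalHyp
import Fermat.Agent.S55.G.SIndH601.DXH99
import Fermat.Agent.S55.H295.TwinVanishing

set_option autoImplicit false
set_option linter.unusedSectionVars false
set_option linter.style.haveILetI false

open scoped NumberField TensorProduct
open IsDedekindDomain CategoryTheory groupCohomology

noncomputable section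

namespace Fermat.Agent.S55.G.SIndH601.U898

open Fermat.Agent.S55 Fermat.Agent.S55.G

/-! ## Generic: the local components of a stable subgroup of `Rˣ` -/

section Generic

variable {G R : Type} [Group G] [CommRing R] (φ : G →* (R ≃+* R))
  (U : Submodule ℤ (Additive Rˣ)) (hU : ∀ g : G, U ≤ U.comap (LocH897.uRepr φ g))

/-- The image of `U` in `(R ⧸ I)ˣ`. -/
def imgSub (I : Ideal R) : Submodule ℤ (Additive (R ⧸ I)ˣ) := U.map (LocH897.locLin I)

lemma mem_imgSub (I : Ideal R) (u : Additive (R ⧸ I)ˣ) :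
    u ∈ imgSub U I ↔ ∃ b ∈ U, LocH897.locLin I b = u := Iff.rfl

lemma resUnitsRepr_locLin (I : Ideal R) (s : LocH897.decomp φ I) (b : Additive Rˣ) :
    LocH897.resUnitsRepr φ I s (LocH897.locLin I b) =
      LocH897.locLin I (LocH897.uRepr φ (s : G) b) := by
  apply Additive.toMul.injective
  apply Units.ext
  rw [LocH897.coe_resUnitsRepr_apply, LocH897.coe_locLin_apply, LocH897.coe_locLin_apply,
    LocH897.resAut_mk]
  rfl

include hU in
lemma imgSub_stable (I : Ideal R) (s : LocH897.decomp φ I) :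
    imgSub U I ≤ (imgSub U I).comap (LocH897.resUnitsRepr φ I s) := by
  rintro u ⟨b, hb, rfl⟩
  exact ⟨LocH897.uRepr φ (s : G) b, hU _ hb, (resUnitsRepr_locLin φ I s b).symm⟩

/-- The local component of `U` at `I`, as a representation of the decomposition group. -/
abbrev ARep (I : Ideal R) : Rep.{0} ℤ (LocH897.decomp φ I) :=
  Rep.of ((LocH897.resUnitsRepr φ I).subrepresentation (imgSub U I) (imgSub_stable φ U hU I))

/-- The inclusion of the local component into `(R ⧸ I)ˣ`. -/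
abbrev jARep (I : Ideal R) : (ARep φ U hU I).V →ₗ[ℤ] Additive (R ⧸ I)ˣ := (imgSub U I).subtype

lemma isZero_of_imgSub_eq_bot (I : Ideal R) (hI : imgSub U I = ⊥) (n : ℕ) :
    Limits.IsZero (groupCohomology (ARep φ U hU I) n) := by
  have hsub : Subsingleton (ARep φ U hU I).V := by
    refine ⟨fun a b => Subtype.ext ?_⟩
    have key0 : ∀ x : Additive (R ⧸ I)ˣ, x ∈ imgSub U I → x = 0 := by
      intro x hx
      rw [hI] at hx
      exact (Submodule.mem_bot ℤ).1 hx
    have key : ∀ c : (ARep φ U hU I).V, (jARep φ U hU I c : Additive (R ⧸ I)ˣ) = 0 :=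
      fun c => key0 _ c.2
    exact (key a).trans (key b).symm
  have hz : Limits.IsZero (ARep φ U hU I) := (Rep.isZero_iff _ _ _).2 hsub
  exact (groupCohomology.functor ℤ (LocH897.decomp φ I) n).map_isZero hz

end Generic

/-! ## The local components of `unitsT` -/

section Global

variable {S S' : Finset Nat.Primes} (h : S ⊆ S') (G L : Type) [Group G] [Field L]
  [NumberField L] [MulSemiringAction G L] (β : SPlace S' L → HeightOneSpectrum (𝓞 L))
  (hstab : ∀ g : G, unitsT h L β ≤ (unitsT h L β).comap (jRepr G S' L g)) (H : Subgroup G)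

include hstab in
lemma hU_of_hstab (g : H) :
    unitsT h L β ≤ (unitsT h L β).comap (LocH897.uRepr (phiH S' G L H) g) :=
  hstab (g : G)

/-- The local component of `unitsT` at the place `𝔪`, as a representation of the decomposition
group of `𝔪` in `H`. -/
abbrev AT (𝔪 : SPlace S' L) : Rep.{0} ℤ (decH S' G H 𝔪) :=
  ARep (phiH S' G L H) (unitsT h L β) (hU_of_hstab h G L β hstab H) 𝔪.asIdeal

lemma locLin_eq_iff (𝔪 : SPlace S' L) (b : Additive (AS S' L)ˣ)
    (x : (LocField S' 𝔪)ˣ) :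
    LocH897.locLin 𝔪.asIdeal b = Additive.ofMul x ↔
      Units.map (LocField.mk S' 𝔪 : AS S' L →* LocField S' 𝔪) b.toMul = x := Iff.rfl

/-- At an `S`-place the local component is trivial. -/
lemma imgSub_eq_bot_of_isSPl (𝔪 : SPlace S' L) (h𝔪 : IsSPl h L 𝔪) :
    imgSub (unitsT h L β) 𝔪.asIdeal = ⊥ := by
  rw [eq_bot_iff]
  rintro u ⟨b, hb, rfl⟩
  rw [Submodule.mem_bot]
  have h1 := locVal'_eq_one_of_isSPl h L β 𝔪 h𝔪 b hb
  apply Additive.toMul.injective
  apply Units.ext
  exact h1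

include h in
lemma not_isAbove_of_not_isSPl (hβ : IsDict S' L β) (𝔪 : SPlace S' L)
    (h𝔪 : ¬ IsSPl h L 𝔪) : ¬ IsAbove S L (β 𝔪) := by
  intro habove
  have h1 := (H99.above S S' h L β hβ 𝔪).1 habove
  exact h𝔪 (fun x hx => mem_of_asRes_eq_zero h L 𝔪 h1 x hx)

/-- Membership in the local component at a place which is not an `S`-place. -/
lemma mem_imgSub_iff_isIntUnit (hβ : IsDict S' L β) (𝔪 : SPlace S' L) (h𝔪 : ¬ IsSPl h L 𝔪)
    (x : (LocField S' 𝔪)ˣ) :
    (Additive.ofMul x : Additive (AS S' L ⧸ 𝔪.asIdeal)ˣ) ∈ imgSub (unitsT h L β) 𝔪.asIdeal ↔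
      IsIntUnit L 𝔪 x := by
  constructor
  · rintro ⟨b, hb, hbx⟩
    have h1 := isIntUnit_of_mem_unitsT h L β 𝔪 (not_isAbove_of_not_isSPl h L β hβ 𝔪 h𝔪) b hb
    have h2 : Units.map (LocField.mk S' 𝔪 : AS S' L →* LocField S' 𝔪) b.toMul = x :=
      (locLin_eq_iff L 𝔪 b x).1 hbx
    rwa [h2] at h1
  · intro hx
    obtain ⟨b, hb, hbx⟩ := exists_mem_unitsT h L β 𝔪 h𝔪 x hx
    exact ⟨b, hb, (locLin_eq_iff L 𝔪 b x).2 hbx⟩

/-- **Local vanishing** at a place which is not an `S`-place. -/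
lemma isZero_AT_of_not_isSPl (hLoc : LocalVanishSpec) [Finite G] [FaithfulSMul G L]
    (hβ : IsDict S' L β) (hunr : IsUnramOut S G L) (𝔪 : SPlace S' L) (h𝔪 : ¬ IsSPl h L 𝔪) :
    Limits.IsZero (groupCohomology (AT h G L β hstab H 𝔪) 1) ∧
      Limits.IsZero (groupCohomology (AT h G L β hstab H 𝔪) 2) := by
  haveI : Fact (Nat.Prime ((PL0H713.primeOf S' L 𝔪).1 : ℕ)) := ⟨(PL0H713.primeOf S' L 𝔪).1.2⟩
  letI := PL0H713.algQq S' L 𝔪
  have hnot := not_isAbove_of_not_isSPl h L β hβ 𝔪 h𝔪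
  unfold LocalVanishSpec at hLoc
  refine @hLoc ((PL0H713.primeOf S' L 𝔪).1 : ℕ) _ (LocField S' 𝔪) _ _
    (PL0H713.finite_locField S' L 𝔪) (decH S' G H 𝔪) _ _
    (psiH S' G H 𝔪) ?_ ?_ ?_ (AT h G L β hstab H 𝔪)
    (jARep (phiH S' G L H) (unitsT h L β) (hU_of_hstab h G L β hstab H) 𝔪.asIdeal) ?_ ?_ ?_
  · intro d c
    exact psiH_ofQq S' G H 𝔪 d c
  · exact psiH_injective S' G H 𝔪
  · intro d hd
    refine eq_one_of_inertia S' G H β hβ hunr 𝔪 hnot d fun x hx => ?_
    obtain ⟨-, h2⟩ := hd x hx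
    exact mem_nonunits_of_inMax S' 𝔪 _ h2
  · exact Subtype.val_injective
  · intro d a
    rfl
  · intro u
    constructor
    · rintro ⟨a, rfl⟩
      exact (mem_imgSub_iff_isIntUnit h L β hβ 𝔪 h𝔪 _).1 a.2
    · intro hu
      exact ⟨⟨u, (mem_imgSub_iff_isIntUnit h L β hβ 𝔪 h𝔪 u.toMul).2 hu⟩, rfl⟩

/-- Vanishing in degrees `1, 2` for every subgroup. -/
theorem isZero_resSub_of (hSL : SemilocalSubSpec) (hLoc : LocalVanishSpec) [Finite G]
    [FaithfulSMul G L] (hβ : IsDict S' L β) (hunr : IsUnramOut S G L) (n : ℕ)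
    (hn : n = 1 ∨ n = 2) :
    Limits.IsZero (groupCohomology
      (T.resSub (Rep.of ((jRepr G S' L).subrepresentation (unitsT h L β) hstab)) H) n) := by
  haveI := LocH897.isReduced_AS S' L
  haveI := LocH897.isArtinianRing_AS S' L
  refine hSL H (AS S' L) (phiH S' G L H) _ ((unitsT h L β).subtype) Subtype.val_injective
    (fun g b => rfl) ?_ (LocH897.OrbitIdx (phiH S' G L H)) (LocH897.orbitRep (phiH S' G L H))
    (LocH897.orbitRep_isMaximal _) (LocH897.orbitRep_cover _) (LocH897.orbitRep_disj _)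
    (fun i => ARep (phiH S' G L H) (unitsT h L β) (hU_of_hstab h G L β hstab H)
      (LocH897.orbitRep (phiH S' G L H) i))
    (fun i => jARep (phiH S' G L H) (unitsT h L β) (hU_of_hstab h G L β hstab H)
      (LocH897.orbitRep (phiH S' G L H) i))
    (fun i => Subtype.val_injective) (fun i s a => rfl) (fun i => ?_) n (fun i => ?_)
  · -- local-global property
    intro u hu
    have hmem : u ∈ unitsT h L β := by
      apply mem_unitsT_of_local
      intro 𝔪
      obtain ⟨b, hb⟩ := hu 𝔪.asIdeal 𝔪.isMaximal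
      refine ⟨(unitsT h L β).subtype b, b.2, ?_⟩
      have := congrArg (fun y : Additive (AS S' L ⧸ 𝔪.asIdeal)ˣ =>
        ((y.toMul : (AS S' L ⧸ 𝔪.asIdeal)ˣ) : AS S' L ⧸ 𝔪.asIdeal)) hb
      exact this
    exact ⟨⟨u, hmem⟩, rfl⟩
  · -- the local components
    ext u
    constructor
    · rintro ⟨a, rfl⟩
      obtain ⟨b, hb, hba⟩ := a.2
      exact ⟨b, ⟨⟨b, hb⟩, rfl⟩, hba⟩
    · rintro ⟨b, ⟨b', rfl⟩, rfl⟩
      exact ⟨⟨_, ⟨_, b'.2, rfl⟩⟩, rfl⟩
  · -- local vanishing
    by_cases hS : IsSPl h L (⟨LocH897.orbitRep (phiH S' G L H) i,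
        LocH897.orbitRep_isMaximal (phiH S' G L H) i⟩ : SPlace S' L)
    · exact isZero_of_imgSub_eq_bot (phiH S' G L H) (unitsT h L β)
        (hU_of_hstab h G L β hstab H) _ (imgSub_eq_bot_of_isSPl h L β _ hS) n
    · have h12 := isZero_AT_of_not_isSPl h G L β hstab H hLoc hβ hunr _ hS
      rcases hn with rfl | rfl
      · exact h12.1
      · exact h12.2

/-- **G-SIND-U.**  `UnitsVanishSpec` from the semi-local Shapiro statement `SemilocalSubSpec`
and the local statement `LocalVanishSpec`. -/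
theorem unitsVanish_of (hSL : SemilocalSubSpec) (hLoc : LocalVanishSpec) : UnitsVanishSpec := by
  intro S S' h G L _ _ _ _ _ _ β hβ _ hunr hstab H n hn
  obtain ⟨m, rfl⟩ : ∃ m, n = m + 1 := ⟨n - 1, by omega⟩
  exact H295.isZero_groupCohomology_of_twin
    (Rep.of ((jRepr G S' L).subrepresentation (unitsT h L β) hstab))
    (fun K => ⟨isZero_resSub_of h G L β hstab K hSL hLoc hβ hunr 1 (Or.inl rfl),
      isZero_resSub_of h G L β hstab K hSL hLoc hβ hunr 2 (Or.inr rfl)⟩) H m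

end Global

end Fermat.Agent.S55.G.SIndH601.U898
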