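/-
S55 (Poitou–Tate), layer G, leaf G-SIND-U, sub-leaf U-LOC (helper241):
`localVanish : LocalVanishSpec`, i.e. `H¹(D, U_E) = H²(D, U_E) = 0` for a finite group `D` acting
faithfully and without inertia on a finite extension `E / ℚ_q`.

Proof: `K = E^D`; `E / K` is Galois with group `D`; its inertia group (`Local.H959`) is trivial,
so `E / K` is unramified (`Local.H959.isUnram_iff_ramExp_eq_one`); then
`Local.Closed.unramUnitsH1`, `Local.Closed.unramUnitsH2`.
-/
import Fermat.Agent.S55.G.SIndH601.U898.Spec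
import Fermat.Agent.S55.Local.H959.InertiaCard
import Fermat.Agent.S55.Local.H715.Closed

set_option autoImplicit false
set_option linter.unusedSectionVars false
set_option linter.style.haveILetI false

open CategoryTheory groupCohomology

noncomputable section

namespace Fermat.Agent.S55.G.SIndH601.U898.LocalH241

open Fermat.Agent.S55 Fermat.Agent.S55.G Fermat.Agent.S55.Local

/-! ## Cohomological criteria -/

/-- `H¹(G, A) = 0` as soon as every 1-cocycle is a 1-coboundary. -/
lemma isZero_H1_of_cob {G : Type} [Group G] (A : Rep.{0} ℤ G)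
    (h : ∀ f : G → A.V, (∀ g h : G, f (g * h) = A.ρ g (f h) + f g) →
      ∃ y : A.V, ∀ g : G, A.ρ g y - y = f g) :
    Limits.IsZero (groupCohomology A 1) := by
  have hsub : Subsingleton (groupCohomology A 1) := by
    refine ⟨fun a b => ?_⟩
    have key : ∀ c : H1 A, c = 0 := by
      intro c
      refine H1_induction_on c fun x => (H1π_eq_zero_iff x).2 ?_
      obtain ⟨y, hy⟩ := h x ((mem_cocycles₁_iff _).1 x.2)
      refine ⟨y, ?_⟩
      funext g
      rw [d₀₁_hom_apply]
      exact hy g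
    rw [key a, key b]
  exact ModuleCat.isZero_of_subsingleton _

/-- `H²(G, A) = 0` as soon as every 2-cocycle is a 2-coboundary. -/
lemma isZero_H2_of_cob {G : Type} [Group G] (A : Rep.{0} ℤ G)
    (h : ∀ f : G × G → A.V,
      (∀ g h j : G, f (g * h, j) + f (g, h) = A.ρ g (f (h, j)) + f (g, h * j)) →
      ∃ x : G → A.V, ∀ g h : G, A.ρ g (x h) - x (g * h) + x g = f (g, h)) :
    Limits.IsZero (groupCohomology A 2) := by
  have hsub : Subsingleton (groupCohomology A 2) := by
    refine ⟨fun a b => ?_⟩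
    have key : ∀ c : H2 A, c = 0 := by
      intro c
      refine H2_induction_on c fun x => (H2π_eq_zero_iff x).2 ?_
      obtain ⟨y, hy⟩ := h x ((mem_cocycles₂_iff _).1 x.2)
      refine ⟨y, ?_⟩
      funext p
      obtain ⟨g, h⟩ := p
      rw [d₁₂_hom_apply]
      exact hy g h
    rw [key a, key b]
  exact ModuleCat.isZero_of_subsingleton _

/-! ## Galois theory: `E / E^D` -/

section Galois

variable (q : ℕ) [Fact q.Prime] (E : Type) [Field E] [Algebra ℚ_[q] E]
  [FiniteDimensional ℚ_[q] E] (D : Type) [Group D] [Finite D] (ψ : D →* (E ≃+* E))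
  (hlin : ∀ (d : D) (c : ℚ_[q]), ψ d (algebraMap ℚ_[q] E c) = algebraMap ℚ_[q] E c)

/-- `ψ` as a homomorphism to the `ℚ_q`-algebra automorphisms. -/
def psiAlg : D →* (E ≃ₐ[ℚ_[q]] E) where
  toFun d := AlgEquiv.ofRingEquiv (f := ψ d) (hlin d)
  map_one' := by
    ext x
    simp
  map_mul' a b := by
    ext x
    simp

lemma psiAlg_apply (d : D) (x : E) : psiAlg q E D ψ hlin d x = ψ d x := rfl

lemma psiAlg_injective (hinj : Function.Injective ψ) :
    Function.Injective (psiAlg q E D ψ hlin) := by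
  intro a b hab
  refine hinj (RingEquiv.ext fun x => ?_)
  have := DFunLike.congr_fun hab x
  exact this

/-- The fixed field `K = E^D`. -/
def fixK : IntermediateField ℚ_[q] E :=
  IntermediateField.fixedField (psiAlg q E D ψ hlin).range

instance isGalois_fixK : IsGalois (fixK q E D ψ hlin) E :=
  IsGalois.of_fixed_field E (psiAlg q E D ψ hlin).range

/-- `D ≃ Gal(E / E^D)`. -/
def theta (hinj : Function.Injective ψ) : D ≃* (E ≃ₐ[fixK q E D ψ hlin] E) :=
  (MonoidHom.ofInjective (psiAlg_injective q E D ψ hlin hinj)).trans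
    (IntermediateField.subgroupEquivAlgEquiv (psiAlg q E D ψ hlin).range)

lemma theta_apply (hinj : Function.Injective ψ) (d : D) (x : E) :
    theta q E D ψ hlin hinj d x = ψ d x := rfl

lemma theta_smul_units (hinj : Function.Injective ψ) (d : D) (u : Eˣ) :
    theta q E D ψ hlin hinj d • u = Units.map ((ψ d : E ≃+* E) : E →* E) u := by
  apply Units.ext
  rfl

/-- `E / E^D` is unramified if `D` acts without inertia. -/
theorem isUnram_fixK (hinj : Function.Injective ψ)
    (hno : ∀ d : D,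
      (∀ x : E, IsInt ℤ_[q] ℚ_[q] E x →
        IsInt ℤ_[q] ℚ_[q] E (ψ d x - x) ∧
          ∀ z : E, IsInt ℤ_[q] ℚ_[q] E z → (ψ d x - x) * z ≠ 1) →
      d = 1) :
    IsUnram ℤ_[q] ℚ_[q] E (fixK q E D ψ hlin) := by
  obtain ⟨J, hJ, hJcard⟩ := H959.exists_inertia ℤ_[q] ℚ_[q] (fixK q E D ψ hlin) E
  have hJbot : J = ⊥ := by
    rw [eq_bot_iff]
    intro σ hσ
    obtain ⟨d, rfl⟩ := (theta q E D ψ hlin hinj).surjective σ
    have hd : d = 1 := hno d fun x hx => (hJ _).1 hσ x hx
    rw [hd, map_one]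
    exact Subgroup.mem_bot.2 rfl
  obtain ⟨ϖK, hK⟩ := Closed.existsUnif ℤ_[q] ℚ_[q] (fixK q E D ψ hlin)
  obtain ⟨ϖE, hE⟩ := Closed.existsUnif ℤ_[q] ℚ_[q] E
  have he := hJcard ϖK ϖE hK hE
  rw [hJbot, Subgroup.card_bot] at he
  exact (H959.isUnram_iff_ramExp_eq_one hK hE (e := 1) he).2 rfl

end Galois

/-! ## The theorem -/

/-- **U-LOC.** -/
theorem localVanish : LocalVanishSpec := by
  intro q _ E _ _ _ D _ _ ψ hlin hinj hno A j hjinj hjeq hjrange
  have hunr := isUnram_fixK q E D ψ hlin hinj hno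
  have hpre : ∀ u : Eˣ, u ∈ intUnits ℤ_[q] ℚ_[q] E → ∃ a : A.V, j a = Additive.ofMul u :=
    fun u hu => (hjrange (Additive.ofMul u)).2 hu
  have hmem : ∀ a : A.V, (j a).toMul ∈ intUnits ℤ_[q] ℚ_[q] E :=
    fun a => (hjrange (j a)).1 ⟨a, rfl⟩
  have hact : ∀ (d : D) (a : A.V),
      (j (A.ρ d a)).toMul = theta q E D ψ hlin hinj d • (j a).toMul := by
    intro d a
    rw [hjeq, theta_smul_units]
    rfl
  constructor
  · refine isZero_H1_of_cob A fun f hf => ?_
    have hc : IsMulCocycle₁ (fun σ : E ≃ₐ[fixK q E D ψ hlin] E =>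
        (j (f ((theta q E D ψ hlin hinj).symm σ))).toMul) := by
      intro g h
      obtain ⟨a, rfl⟩ := (theta q E D ψ hlin hinj).surjective g
      obtain ⟨b, rfl⟩ := (theta q E D ψ hlin hinj).surjective h
      simp only [← map_mul, MulEquiv.symm_apply_apply]
      rw [hf, map_add, toMul_add, hact]
    obtain ⟨m, hm, hmc⟩ := Closed.unramUnitsH1 ℤ_[q] ℚ_[q] (fixK q E D ψ hlin) E hunr _ hc
      (fun g => hmem _)
    obtain ⟨y, hy⟩ := hpre m hm
    refine ⟨y, fun d => hjinj ?_⟩
    apply Additive.toMul.injective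
    rw [map_sub, toMul_sub, hact, hy, toMul_ofMul]
    have h1 := hmc (theta q E D ψ hlin hinj d)
    simp only [MulEquiv.symm_apply_apply] at h1
    exact h1
  · refine isZero_H2_of_cob A fun f hf => ?_
    have hc : IsMulCocycle₂ (fun p : (E ≃ₐ[fixK q E D ψ hlin] E) ×
        (E ≃ₐ[fixK q E D ψ hlin] E) =>
        (j (f ((theta q E D ψ hlin hinj).symm p.1,
          (theta q E D ψ hlin hinj).symm p.2))).toMul) := by
      intro g h k
      obtain ⟨a, rfl⟩ := (theta q E D ψ hlin hinj).surjective g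
      obtain ⟨b, rfl⟩ := (theta q E D ψ hlin hinj).surjective h
      obtain ⟨c, rfl⟩ := (theta q E D ψ hlin hinj).surjective k
      simp only [← map_mul, MulEquiv.symm_apply_apply]
      rw [← hact, ← toMul_add, ← toMul_add, ← map_add, ← map_add, hf]
    obtain ⟨x, hx, hxc⟩ := Closed.unramUnitsH2 ℤ_[q] ℚ_[q] (fixK q E D ψ hlin) E hunr _ hc
      (fun p => hmem _)
    choose y hy using fun d : D => hpre (x (theta q E D ψ hlin hinj d))
      (hx (theta q E D ψ hlin hinj d))
    refine ⟨y, fun g h => hjinj ?_⟩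
    apply Additive.toMul.injective
    rw [map_add, map_sub, toMul_add, toMul_sub, hact, hy, hy, hy, toMul_ofMul, toMul_ofMul,
      toMul_ofMul, map_mul]
    have h1 := hxc (theta q E D ψ hlin hinj g) (theta q E D ψ hlin hinj h)
    simp only [MulEquiv.symm_apply_apply] at h1
    exact h1

end Fermat.Agent.S55.G.SIndH601.U898.LocalH241
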