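/-
S55 (Poitou–Tate), layer G, leaf G-SIND-U, sub-leaf **U-SL** (helper452):

    semilocalSub : SemilocalSubSpec

(exact `Prop` of `SIndH601/U898/Spec.lean`).  Semi-local Shapiro for a `G`-stable subgroup
`U = range j ≤ Rˣ` which is a product of local subgroups, in vanishing form.

Proof: recognition form `LocH897.semilocal_bijective` with `π i := (jA i)⁻¹ ∘ locLin (𝔪 i) ∘ j`;
the recognition hypothesis comes from `LocH897.existsUnique_units` (the unit `u` with prescribed
residues exists and is unique in `Rˣ`) and the local-global hypothesis (`u ∈ range j`).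
-/
import Fermat.Agent.S55.G.SIndH601.U898.Spec
import Fermat.Agent.S55.T.ShapiroH303
import Fermat.Agent.S55.T.SumH635

set_option autoImplicit false

open CategoryTheory groupCohomology

noncomputable section

namespace Fermat.Agent.S55.G.SIndH601.U898.H452

open Fermat.Agent.S55 Fermat.Agent.S55.G

section Proj

variable {G R : Type} [Group G] [CommRing R] (φ : G →* (R ≃+* R))

/-- Reduction modulo `I` commutes with the action of the decomposition group of `I`. -/
lemma locLin_uRepr (I : Ideal R) (s : LocH897.decomp φ I) (x : Additive Rˣ) :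
    LocH897.locLin I (LocH897.uRepr φ (s : G) x) =
      LocH897.resUnitsRepr φ I s (LocH897.locLin I x) := by
  apply Additive.toMul.injective
  apply Units.ext
  show (((LocH897.locLin I (LocH897.uRepr φ (s : G) x)).toMul : (R ⧸ I)ˣ) : R ⧸ I) =
    (((LocH897.resUnitsRepr φ I s (LocH897.locLin I x)).toMul : (R ⧸ I)ˣ) : R ⧸ I)
  rw [LocH897.coe_locLin_apply, LocH897.coe_uRepr_apply, LocH897.coe_resUnitsRepr_apply,
    LocH897.coe_locLin_apply, LocH897.resAut_mk]

/-- Two units have the same reduction modulo `I` iff their difference lies in `I`. -/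
lemma locLin_eq_iff (I : Ideal R) (x y : Additive Rˣ) :
    LocH897.locLin I x = LocH897.locLin I y ↔
      ((x.toMul : Rˣ) : R) - ((y.toMul : Rˣ) : R) ∈ I := by
  rw [← Ideal.Quotient.eq]
  constructor
  · intro h
    have := congrArg (fun z : Additive (R ⧸ I)ˣ => ((z.toMul : (R ⧸ I)ˣ) : R ⧸ I)) h
    exact this
  · intro h
    apply Additive.toMul.injective
    apply Units.ext
    exact h

variable (B : Rep.{0} ℤ G) (j : B.V →ₗ[ℤ] Additive Rˣ)
  (I : Ideal R) (A : Rep.{0} ℤ (LocH897.decomp φ I))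
  (jA : A.V →ₗ[ℤ] Additive (R ⧸ I)ˣ) (hjA : Function.Injective jA)
  (hrange : LinearMap.range jA = (LinearMap.range j).map (LocH897.locLin I))

/-- The linear map `π = jA⁻¹ ∘ locLin I ∘ j : B → A`. -/
def piLin : B.V →ₗ[ℤ] A.V :=
  ((LinearEquiv.ofInjective jA hjA).symm : LinearMap.range jA →ₗ[ℤ] A.V).comp
    (LinearMap.codRestrict (LinearMap.range jA) ((LocH897.locLin I).comp j) (fun b => by
      rw [hrange]
      exact Submodule.mem_map_of_mem (LinearMap.mem_range_self j b)))

lemma jA_piLin (b : B.V) :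
    jA (piLin φ B j I A jA hjA hrange b) = LocH897.locLin I (j b) := by
  have hmem : LocH897.locLin I (j b) ∈ LinearMap.range jA := by
    rw [hrange]
    exact Submodule.mem_map_of_mem (LinearMap.mem_range_self j b)
  have h := (LinearEquiv.ofInjective jA hjA).apply_symm_apply ⟨LocH897.locLin I (j b), hmem⟩
  exact congrArg Subtype.val h

variable (hj : ∀ (g : G) (b : B.V), j (B.ρ g b) = LocH897.uRepr φ g (j b))
  (hA : ∀ (s : LocH897.decomp φ I) (a : A.V),
    jA (A.ρ s a) = LocH897.resUnitsRepr φ I s (jA a))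

include hj hA in
lemma piLin_comm (s : LocH897.decomp φ I) (b : B.V) :
    piLin φ B j I A jA hjA hrange (B.ρ (s : G) b) =
      A.ρ s (piLin φ B j I A jA hjA hrange b) := by
  apply hjA
  rw [jA_piLin, hA, jA_piLin, hj, locLin_uRepr]

/-- `piLin` as a linear map for the module structures carried by the representations. -/
def piLinRep : @LinearMap ℤ ℤ _ _ (RingHom.id ℤ) B.V A.V _ _ B.hV2 A.hV2 :=
  @LinearMap.mk ℤ ℤ _ _ (RingHom.id ℤ) B.V A.V _ _ B.hV2 A.hV2
    (piLin φ B j I A jA hjA hrange).toAddMonoidHom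
    (fun c x => by
      have h := @map_intCast_smul B.V A.V _ _ _ _ _
        (piLin φ B j I A jA hjA hrange).toAddMonoidHom ℤ ℤ _ _ B.hV2 A.hV2 c x
      simpa using h)

/-- The morphism `π : Res_{D_I} B ⟶ A` of representations of the decomposition group. -/
def piHom : Rep.res (LocH897.decomp φ I).subtype B ⟶ A :=
  ConcreteCategory.ofHom (C := Rep.{0} ℤ (LocH897.decomp φ I))
    (X := Rep.res (LocH897.decomp φ I).subtype B) (Y := A)
    (@Representation.IntertwiningMap.mk ℤ (LocH897.decomp φ I) B.V A.V _ _ _ _ B.hV2 A.hV2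
      (B.ρ.comp (LocH897.decomp φ I).subtype) A.ρ (piLinRep φ B j I A jA hjA hrange)
      (fun s => @LinearMap.ext ℤ ℤ B.V A.V _ _ _ _ B.hV2 A.hV2 _ _ _
        (fun b => piLin_comm φ B j I A jA hjA hrange hj hA s b)))

lemma piHom_hom_apply (b : B.V) :
    (piHom φ B j I A jA hjA hrange hj hA).hom b = piLin φ B j I A jA hjA hrange b := rfl

end Proj

/-- **U-SL**: semi-local Shapiro for product subgroups of the units, vanishing form. -/
theorem semilocalSub : SemilocalSubSpec := by
  intro G R _ _ _ _ φ B j hjinj hj hLG ι _ 𝔪 hmax hcover hdisj A jA hjA hA hrange n hzero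
  -- the projections
  set π : ∀ i, Rep.res (LocH897.decomp φ (𝔪 i)).subtype B ⟶ A i :=
    fun i => piHom φ B j (𝔪 i) (A i) (jA i) (hjA i) (hrange i) hj (hA i) with hπ
  have hπj : ∀ i (b : B.V), jA i ((π i).hom b) = LocH897.locLin (𝔪 i) (j b) :=
    fun i b => jA_piLin φ B j (𝔪 i) (A i) (jA i) (hjA i) (hrange i) b
  have hbij := LocH897.semilocal_bijective (k := ℤ) T.ShapiroH303.shapiroExplicit
    T.H635.finiteProd ι (fun i => LocH897.decomp φ (𝔪 i)) A B π ?_ n
  · -- all targets vanish
    have hsub : Subsingleton (groupCohomology B n) := by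
      refine ⟨fun x y => hbij.1 (funext fun i => ?_)⟩
      haveI : Subsingleton (groupCohomology (A i) n) :=
        ModuleCat.subsingleton_of_isZero (hzero i)
      exact Subsingleton.elim _ _
    exact ModuleCat.isZero_of_subsingleton _
  · -- the recognition hypothesis
    intro f hf
    -- the unit with the prescribed residues
    obtain ⟨u, hu, huu⟩ := LocH897.existsUnique_units φ 𝔪 hmax hcover hdisj
      (fun i g => (jA i (f i g)).toMul) (fun i s g => by
        have h1 : jA i (f i (s * g)) = LocH897.resUnitsRepr φ (𝔪 i) s (jA i (f i g)) := by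
          rw [hf i s g, hA i]
        have := congrArg
          (fun y : Additive (R ⧸ 𝔪 i)ˣ => ((y.toMul : (R ⧸ 𝔪 i)ˣ) : R ⧸ 𝔪 i)) h1
        exact this)
    -- it lies in the range of `j`
    have hmem : Additive.ofMul u ∈ LinearMap.range j := by
      refine hLG _ fun 𝔫 h𝔫 => ?_
      obtain ⟨i, g, hig⟩ := hcover 𝔫 h𝔫
      have h1 : jA i (f i g) ∈ (LinearMap.range j).map (LocH897.locLin (𝔪 i)) := by
        rw [← hrange i]
        exact LinearMap.mem_range_self _ _
      obtain ⟨y, ⟨b₀, rfl⟩, hb₀⟩ := h1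
      refine ⟨B.ρ g⁻¹ b₀, ?_⟩
      rw [locLin_eq_iff, hig, map_sub, hj]
      have h2 : φ g (((LocH897.uRepr φ g⁻¹ (j b₀)).toMul : Rˣ) : R)
          = (((j b₀).toMul : Rˣ) : R) := by
        rw [LocH897.coe_uRepr_apply, LocH897.apply_apply_inv]
      rw [h2]
      have h3 : Ideal.Quotient.mk (𝔪 i) (((j b₀).toMul : Rˣ) : R)
          = Ideal.Quotient.mk (𝔪 i) (φ g (u : R)) := by
        rw [hu i g]
        have := congrArg
          (fun y : Additive (R ⧸ 𝔪 i)ˣ => ((y.toMul : (R ⧸ 𝔪 i)ˣ) : R ⧸ 𝔪 i)) hb₀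
        exact this
      exact Ideal.Quotient.eq.1 h3
    obtain ⟨b, hb⟩ := hmem
    have hbu : ((j b).toMul : Rˣ) = u := congrArg Additive.toMul hb
    refine ⟨b, fun i g => ?_, fun c hc => ?_⟩
    · apply hjA i
      rw [hπj, hj]
      apply Additive.toMul.injective
      apply Units.ext
      show (((LocH897.locLin (𝔪 i) (LocH897.uRepr φ g (j b))).toMul : (R ⧸ 𝔪 i)ˣ) : R ⧸ 𝔪 i)
        = (((jA i (f i g)).toMul : (R ⧸ 𝔪 i)ˣ) : R ⧸ 𝔪 i)
      rw [LocH897.coe_locLin_apply, LocH897.coe_uRepr_apply, hbu]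
      exact hu i g
    · apply hjinj
      rw [hb]
      apply Additive.toMul.injective
      refine huu (j c).toMul fun i g => ?_
      have h1 : jA i ((π i).hom (B.ρ g c)) = jA i (f i g) := by rw [hc i g]
      rw [hπj, hj] at h1
      have := congrArg
        (fun y : Additive (R ⧸ 𝔪 i)ˣ => ((y.toMul : (R ⧸ 𝔪 i)ˣ) : R ⧸ 𝔪 i)) h1
      exact this

end Fermat.Agent.S55.G.SIndH601.U898.H452

end
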