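/-
S55 / G / G-SIND-U (helper898): `unitsVanish : UnitsVanishSpec`, unconditional.

Assembly `unitsVanish_of` (helper898) + `U-SL` (`SemilocalSubSpec`, helper452) +
`U-LOC` (`LocalVanishSpec`, helper241).
-/
import Fermat.Agent.S55.G.SIndH601.U898.Assembly
import Fermat.Agent.S55.G.SIndH601.U898.LocalH241
import Fermat.Agent.S55.G.SIndH601.U898.SemilocalH452

set_option autoImplicit false

namespace Fermat.Agent.S55.G.SIndH601.U898

/-- **G-SIND-U.**  `Hⁿ(H, ∏_{w | S' ∖ S} U_w) = 0` for all `H ≤ G`, `n ≥ 1`. -/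
theorem unitsVanish : UnitsVanishSpec :=
  unitsVanish_of H452.semilocalSub LocalH241.localVanish

end Fermat.Agent.S55.G.SIndH601.U898
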